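/-
S33lib / Iface  (helper4, architect of the algebra track)  — Project LSp

Interface of the proof of S33 (`H.ρ` is ordinary at `p`, for `p` odd, `p ∥ N`, residually ordinary).
Everything here is a definition or a trivial lemma.

GEOMETRY (track B) delivers `GeomPStmt`: for every `n` a subgroup `K ≤ J₀(N)[p^n]` (the points of
the kernel of reduction) which is inertia-stable, such that inertia acts unipotently of level 2 on
`J₀(N)[p^n] / K`, together with a CONNECTED `A0`-Hopf order of inertia-equivariant functions on `K`.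

ALGEBRA (track A):
* `Conn`   (helper4): `PFiltStmt N p → PFiltAlgStmt N p`: a connected Hopf order has no non-zero
                      subquotient with trivial inertia action (`NoTrivSubquotIn`).
* `Lat`    (helper8): `LatStmt`: for every character `ψ : T → O₁`, a non-zero inertia-invariant
                      `ψ`-semilinear functional on `ρ.V` (`CharStmt`).
* `TLevel` (helper5): `TLevelStmt`: jointly injective characters with `CharStmt` give the ordinary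
                      line of `ρ` over `T`.
* glue     (lead)   : `S33lib/Main.lean` (`isOrdinaryAt_of_stmts`), `S33.lean`.
-/
import Mathlib
import Fermat.Statements.S33
import Fermat.Agent.S19lib.Iface

set_option autoImplicit false

noncomputable section

namespace Fermat.Agent.S33lib

open Fermat.Agent.S19lib

local notation "Qb" => AlgebraicClosure ℚ
local notation "GQ" => (AlgebraicClosure ℚ ≃ₐ[ℚ] AlgebraicClosure ℚ)

/-! ### the geometric deliverable -/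

/-- **connectedness** of a Hopf order: every function of the order is constant modulo `𝔪_A`
(the only point of the special fibre is the origin). -/
def IsConnectedOrder {A : ValuationSubring Qb} {ℓ : ℕ} {R : Subring Qb} {U : Subgroup GQ}
    {J : Type} [AddCommGroup J] [DistribMulAction GQ J] {Γ : AddSubgroup J}
    (O : HopfOrder A ℓ R U Γ) : Prop :=
  ∀ φ ∈ O.H, ∀ x : Γ, A.valuation (φ x - φ 0) < 1

/-- **(P)** the `p`-adic filtration of `J₀(N)[p^n]` at a prime `p ∥ N`: for every `n` a subgroup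
`K ≤ J₀(N)[p^n]` (the `p^n`-torsion of the kernel of reduction) such that
(P1) `K` is inertia-stable, (P2) `(σ - 1)(τ - 1) J₀(N)[p^n] ⊆ K` for `σ, τ` in the inertia group,
(P3) `K` carries a connected `A0`-Hopf order of inertia-equivariant functions. -/
def PFiltStmt (N : ℕ) [NeZero N] (p : ℕ) : Prop :=
  ∀ A : ValuationSubring Qb, A.LiesOverPrime p → ∀ n : ℕ,
    ∃ K : AddSubgroup (ModularCurve.JZero N), K ≤ tors N ((p : ℤ) ^ n) ∧
      (∀ σ ∈ IA A, ∀ x ∈ K, σ • x ∈ K) ∧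
      (∀ σ ∈ IA A, ∀ τ ∈ IA A, ∀ x ∈ tors N ((p : ℤ) ^ n),
        σ • (τ • x - x) - (τ • x - x) ∈ K) ∧
      ∃ O : HopfOrder A p (A0 A) (IA A) K, IsConnectedOrder O

/-- **Geometry (track B)**: `(P)` at every odd prime `p ∥ N`. -/
def GeomPStmt : Prop :=
  ∀ (N : ℕ) [NeZero N] (p : ℕ), p.Prime → p ≠ 2 → p ∣ N → ¬ p ^ 2 ∣ N → PFiltStmt N p

/-! ### the algebraic form of (P3) -/

/-- `K` has **no non-zero subquotient with trivial inertia action**: if `Γ'' ≤ Γ' ≤ K` are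
inertia-stable and inertia acts trivially on `Γ' / Γ''`, then `Γ' = Γ''`. -/
def NoTrivSubquotIn (A : ValuationSubring Qb) {J : Type} [AddCommGroup J] [DistribMulAction GQ J]
    (K : AddSubgroup J) : Prop :=
  ∀ Γ'' Γ' : AddSubgroup J, Γ'' ≤ Γ' → Γ' ≤ K →
    (∀ σ ∈ IA A, ∀ x ∈ Γ'', σ • x ∈ Γ'') → (∀ σ ∈ IA A, ∀ x ∈ Γ', σ • x ∈ Γ') →
    (∀ σ ∈ IA A, ∀ x ∈ Γ', σ • x - x ∈ Γ'') → Γ' ≤ Γ''

/-- `(P)` with (P3) in algebraic form; this is what `Lat` consumes. -/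
def PFiltAlgStmt (N : ℕ) [NeZero N] (p : ℕ) : Prop :=
  ∀ A : ValuationSubring Qb, A.LiesOverPrime p → ∀ n : ℕ,
    ∃ K : AddSubgroup (ModularCurve.JZero N), K ≤ tors N ((p : ℤ) ^ n) ∧
      (∀ σ ∈ IA A, ∀ x ∈ K, σ • x ∈ K) ∧
      (∀ σ ∈ IA A, ∀ τ ∈ IA A, ∀ x ∈ tors N ((p : ℤ) ^ n),
        σ • (τ • x - x) - (τ • x - x) ∈ K) ∧
      NoTrivSubquotIn A K

/-- **Conn** (helper4): a connected Hopf order over `A0` (`p` odd) has no non-zero subquotient with
trivial inertia action. -/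
def ConnStmt : Prop :=
  ∀ (p : ℕ), p.Prime → p ≠ 2 → ∀ A : ValuationSubring Qb, A.LiesOverPrime p →
    ∀ (J : Type) [AddCommGroup J] [DistribMulAction GQ J] (K : AddSubgroup J) (n : ℕ),
      (∀ x ∈ K, (p ^ n : ℕ) • x = 0) → (∀ σ ∈ IA A, ∀ x ∈ K, σ • x ∈ K) →
      ∀ O : HopfOrder A p (A0 A) (IA A) K, IsConnectedOrder O → NoTrivSubquotIn A K

/-! ### characters -/

/-- the body of `GaloisRepAdic.IsOrdinaryAt` at one place `P` -/
def OrdBody {T : Type} [CommRing T] [IsLocalRing T] (ρ : GaloisRepAdic T)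
    (P : ValuationSubring Qb) : Prop :=
  ∃ L : Submodule T ρ.V,
    (∃ b : Module.Basis (Fin 2) T ρ.V, L = T ∙ b 0) ∧
    (∀ σ ∈ P.decompositionSubgroup ℚ, ∀ v ∈ L, ρ.ρ σ v ∈ L) ∧
    (∀ σ ∈ P.inertiaSubgroupIn ℚ, ∀ v : ρ.V, ρ.ρ σ v - v ∈ L)

theorem isOrdinaryAt_iff_ordBody {T : Type} [CommRing T] [IsLocalRing T] (ρ : GaloisRepAdic T)
    (p : ℕ) : ρ.IsOrdinaryAt p ↔ ∀ P : ValuationSubring Qb, P.LiesOverPrime p → OrdBody ρ P :=
  Iff.rfl

/-- **the character statement**: a non-zero `ψ`-semilinear functional on `ρ.V`, with values in a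
domain containing the target of `ψ`, which is invariant under the inertia group at `P`
(equivalently: the inertia coinvariants of `ρ ⊗_ψ Frac` are non-zero). -/
def CharStmt {T : Type} [CommRing T] [IsLocalRing T] (ρ : GaloisRepAdic T)
    (P : ValuationSubring Qb) {O : Type} [CommRing O] (ψ : T →+* O) : Prop :=
  ∃ (O' : Type) (_ : CommRing O') (_ : IsDomain O') (ι : O →+* O'), Function.Injective ι ∧
    ∃ f : ρ.V →+ O', (∀ (t : T) (v : ρ.V), f (t • v) = ι (ψ t) * f v) ∧ (∃ v, f v ≠ 0) ∧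
      ∀ σ ∈ P.inertiaSubgroupIn ℚ, ∀ v : ρ.V, f (ρ.ρ σ v) = f v

/-- **TLevel** (helper5): jointly injective characters of `T`, each with an inertia-invariant
semilinear functional, give the ordinary line of `H.ρ` at `P`.
(`L := ∑_{σ ∈ I} (ρ σ - 1) V`; `det ρ = χ_p` and `p` odd make `V / L` cyclic, `≅ T / 𝔍`; the
functionals force `ψ k (𝔍) = 0` for all `k`, so `𝔍 = 0`.) -/
def TLevelStmt : Prop :=
  ∀ (p : ℕ) (N : ℕ) [NeZero N] (S : Finset ℕ)
    (𝒪 : Type) [CommRing 𝒪] [IsDomain 𝒪] [IsDiscreteValuationRing 𝒪]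
    [IsAdicComplete (IsLocalRing.maximalIdeal 𝒪) 𝒪]
    (θ : CuspForm.heckeAlgebra N 2 (↑S : Set ℕ) →+* IsLocalRing.ResidueField 𝒪)
    (T : Type) [CommRing T] [IsLocalRing T] [IsNoetherianRing T]
    [IsAdicComplete (IsLocalRing.maximalIdeal T) T] [Algebra 𝒪 T] [IsLocalHom (algebraMap 𝒪 T)]
    [Module.Finite 𝒪 T] [Module.Free 𝒪 T]
    [Finite (IsLocalRing.ResidueField 𝒪)] [CharZero 𝒪],
    p.Prime → p ≠ 2 → (p : 𝒪) ∈ IsLocalRing.maximalIdeal 𝒪 → (p ∣ N ∧ ¬ p ^ 2 ∣ N) →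
    (∀ q : ℕ, q.Prime → q ∣ N → q ∈ S) →
    ∀ H : CuspForm.HeckeGaloisRepDatum N (↑S : Set ℕ) 𝒪 θ T,
    (GaloisRepAdic.ofResidualGaloisRep H.ρ.residual).IsOrdinaryAt p →
    ∀ P : ValuationSubring Qb, P.LiesOverPrime p →
    ∀ (κ : Type) [Fintype κ] (O₁ : Type) [CommRing O₁] [IsDomain O₁] (ψ : κ → T →+* O₁),
      (∀ t : T, (∀ k, ψ k t = 0) → t = 0) → (∀ k, CharStmt H.ρ P (ψ k)) → OrdBody H.ρ P

/-- **Lat** (helper8): in the situation of S33, every character `ψ : T → O₁` into a complete DVR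
finite over `𝒪` satisfies `CharStmt`.
(`Λ ⊆ T_p J₀(N) ⊗ O₂` the `ψ`-lattice of `S32lib/Lat`; if the inertia coinvariants of `Λ ⊗ Frac` vanish
then `p^c Λ ⊆ ∑ (σ-1)(τ-1) Λ`, whose image in `J₀(N)[p^n] ⊗ O₂` lies in `K ⊗ O₂` by (P2); but
`p^c Λ / p^c 𝔪 Λ ≅ ρ̄ ⊗ k₂` has a non-zero quotient with trivial inertia action — `hres` —
contradicting `NoTrivSubquotIn`.) -/
def LatStmt : Prop :=
  ∀ (p : ℕ) (N : ℕ) [NeZero N] (S : Finset ℕ)
    (𝒪 : Type) [CommRing 𝒪] [IsDomain 𝒪] [IsDiscreteValuationRing 𝒪]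
    [IsAdicComplete (IsLocalRing.maximalIdeal 𝒪) 𝒪]
    (θ : CuspForm.heckeAlgebra N 2 (↑S : Set ℕ) →+* IsLocalRing.ResidueField 𝒪)
    (T : Type) [CommRing T] [IsLocalRing T] [IsNoetherianRing T]
    [IsAdicComplete (IsLocalRing.maximalIdeal T) T] [Algebra 𝒪 T] [IsLocalHom (algebraMap 𝒪 T)]
    [Module.Finite 𝒪 T] [Module.Free 𝒪 T]
    [Finite (IsLocalRing.ResidueField 𝒪)] [CharZero 𝒪],
    p.Prime → p ≠ 2 → (p : 𝒪) ∈ IsLocalRing.maximalIdeal 𝒪 → (p ∣ N ∧ ¬ p ^ 2 ∣ N) →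
    (∀ q : ℕ, q.Prime → q ∣ N → q ∈ S) →
    ∀ H : CuspForm.HeckeGaloisRepDatum N (↑S : Set ℕ) 𝒪 θ T,
    (GaloisRepAdic.ofResidualGaloisRep H.ρ.residual).IsOrdinaryAt p →
    PFiltAlgStmt N p →
    ∀ P : ValuationSubring Qb, P.LiesOverPrime p →
    ∀ (O₁ : Type) [CommRing O₁] [IsDomain O₁] [IsDiscreteValuationRing O₁]
      [IsAdicComplete (IsLocalRing.maximalIdeal O₁) O₁] [Finite (IsLocalRing.ResidueField O₁)]
      [CharZero O₁] [Algebra 𝒪 O₁] [Module.Finite 𝒪 O₁] [IsLocalHom (algebraMap 𝒪 O₁)]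
      (ψ : T →ₐ[𝒪] O₁), Function.Injective (algebraMap 𝒪 O₁) →
      CharStmt H.ρ P (ψ : T →+* O₁)

/-- `(P)` implies its algebraic form, given `Conn`. -/
theorem pFiltAlgStmt_of_connStmt (hC : ConnStmt) {N : ℕ} [NeZero N] {p : ℕ} (hp : p.Prime)
    (hp2 : p ≠ 2) (h : PFiltStmt N p) : PFiltAlgStmt N p := by
  intro A hA n
  obtain ⟨K, hK, hst, h2, O, hO⟩ := h A hA n
  refine ⟨K, hK, hst, h2, hC p hp hp2 A hA _ K n ?_ hst O hO⟩
  intro x hx
  have h1 : ((p : ℤ) ^ n) • x = 0 := by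
    have := hK hx
    simpa [tors, Submodule.mem_torsionBy_iff] using this
  rw [← h1, ← natCast_zsmul]
  push_cast
  rfl

/-! ### the case `p = 3`: transfer from level `4 N`

The nodal model of `X₀(M p)` at `p` is available for `p ≥ 5`, and for `p = 3` when `4 ∣ M`.  The
general case is reached by transfer along `π : X₀(4 N) → X₀(N)` at the level of `PFiltAlgStmt`
(`π_* π^* = deg π = 2^a 3^b`, `b ≤ 1`; `p`-power torsion is divisible, so
`(σ-1)(τ-1) J₀(N)[p^n] ⊆ π_* ((σ-1)(τ-1) J₀(4N)[p^(n+1)])`, and `NoTrivSubquotIn` passes to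
equivariant images and to subgroups).  No change of `(P2)` is needed. -/

/-- **Geometry (track B), direct case**: `(P)` at every odd prime `p ∥ N`, with `4 ∣ N` if `p = 3`. -/
def GeomPStmtDirect : Prop :=
  ∀ (N : ℕ) [NeZero N] (p : ℕ), p.Prime → p ≠ 2 → p ∣ N → ¬ p ^ 2 ∣ N → (p = 3 → 4 ∣ N) →
    PFiltStmt N p

/-- **Transfer** (for `p = 3`): the algebraic form of `(P)` descends from level `4 N` to level `N`. -/
def XferPStmt : Prop :=
  ∀ (N : ℕ) [NeZero N] [NeZero (4 * N)] (p : ℕ), p.Prime → p ≠ 2 →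
    PFiltAlgStmt (4 * N) p → PFiltAlgStmt N p

/-- the algebraic form of `(P)` at every odd `p ∥ N`, from the direct case, `Conn` and the
transfer. -/
theorem pFiltAlgStmt_of_direct (hC : ConnStmt) (hG : GeomPStmtDirect) (hX : XferPStmt)
    {N : ℕ} [NeZero N] {p : ℕ} (hp : p.Prime) (hp2 : p ≠ 2) (hN : p ∣ N ∧ ¬ p ^ 2 ∣ N) :
    PFiltAlgStmt N p := by
  by_cases h3 : p = 3 → 4 ∣ N
  · exact pFiltAlgStmt_of_connStmt hC hp hp2 (hG N p hp hp2 hN.1 hN.2 h3)
  · push Not at h3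
    obtain ⟨hp3, -⟩ := h3
    haveI : NeZero (4 * N) := ⟨Nat.mul_ne_zero (by norm_num) (NeZero.ne N)⟩
    refine hX N p hp hp2 ?_
    refine pFiltAlgStmt_of_connStmt hC hp hp2
      (hG (4 * N) p hp hp2 (Dvd.dvd.mul_left hN.1 4) ?_ (fun _ => Dvd.intro N rfl))
    -- `p ^ 2 ∤ 4 N` since `p` is odd
    intro h
    apply hN.2
    have hcop : Nat.Coprime (p ^ 2) 4 := by
      rw [hp3]
      decide
    exact hcop.dvd_of_dvd_mul_left h

end Fermat.Agent.S33lib

end
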