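/-
S33lib / Asm (helper4): **S33 from the block statements.**
`isOrdinaryAt_of_stmts : TLevelStmt → LatStmt → ConnStmt → GeomPStmt → (hypotheses of S33) →
H.ρ.IsOrdinaryAt p`.
Enough characters `ψ_k : T → O₁` come from `S32lib/Chars/Main` (reducedness of the anemic Hecke
algebra), exactly as in `S32lib/Main`.
-/
import Fermat.Agent.S33lib.Iface
import Fermat.Agent.S32lib.Chars.Main
import Fermat.Agent.S31lib.PET.Main
import Fermat.Agent.S22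

set_option autoImplicit false
set_option linter.unusedSectionVars false
set_option linter.style.haveILetI false

noncomputable section

namespace Fermat.Agent.S33lib

open IsLocalRing CuspForm Fermat.Agent.S32lib

variable {p : ℕ} {N : ℕ} [NeZero N] {S : Finset ℕ}
  {𝒪 : Type} [CommRing 𝒪] [IsDomain 𝒪] [IsDiscreteValuationRing 𝒪]
  [IsAdicComplete (IsLocalRing.maximalIdeal 𝒪) 𝒪]
  {θ : CuspForm.heckeAlgebra N 2 (↑S : Set ℕ) →+* IsLocalRing.ResidueField 𝒪}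
  {T : Type} [CommRing T] [IsLocalRing T] [IsNoetherianRing T]
  [IsAdicComplete (IsLocalRing.maximalIdeal T) T] [Algebra 𝒪 T] [IsLocalHom (algebraMap 𝒪 T)]
  [Module.Finite 𝒪 T] [Module.Free 𝒪 T]

/-- **S33 from the block statements** (with `(P)` in algebraic form). -/
theorem isOrdinaryAt_of_pFiltAlg (hTL : TLevelStmt) (hLat : LatStmt)
    [Finite (IsLocalRing.ResidueField 𝒪)] [CharZero 𝒪]
    (hp : p.Prime) (hp2 : p ≠ 2) (hp𝒪 : (p : 𝒪) ∈ IsLocalRing.maximalIdeal 𝒪)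
    (hN : p ∣ N ∧ ¬ p ^ 2 ∣ N) (hNS : ∀ q : ℕ, q.Prime → q ∣ N → q ∈ S)
    (H : CuspForm.HeckeGaloisRepDatum N (↑S : Set ℕ) 𝒪 θ T)
    (hres : (GaloisRepAdic.ofResidualGaloisRep H.ρ.residual).IsOrdinaryAt p)
    (hP : PFiltAlgStmt N p) :
    H.ρ.IsOrdinaryAt p := by
  classical
  -- enough characters
  haveI : IsReduced ↥(CuspForm.heckeAlgebra N 2 (↑S : Set ℕ)) :=
    Fermat.Agent.S31lib.PET.isReduced_heckeAlgebra' (fun q hq hqN => Finset.mem_coe.mpr (hNS q hq hqN))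
  haveI : Module.Finite ℤ ↥(CuspForm.heckeAlgebra N 2 (↑S : Set ℕ)) :=
    Fermat.Agent.S22.result N 2 (↑S : Set ℕ)
  obtain ⟨κ, hκ, O₁, i1, i2, i3, i4, i5, i6, i7, i8, i9, hinj, ψ, hψ⟩ :=
    exists_characters_dvr H.π H.adjoin_range_π
  rw [isOrdinaryAt_iff_ordBody]
  intro P hPp
  refine hTL p N S 𝒪 θ T hp hp2 hp𝒪 hN hNS H hres P hPp κ O₁ (fun k => (ψ k : T →+* O₁)) hψ ?_
  intro k
  exact hLat p N S 𝒪 θ T hp hp2 hp𝒪 hN hNS H hres hP P hPp O₁ (ψ k) hinj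

/-- **S33 from the block statements.** -/
theorem isOrdinaryAt_of_stmts (hTL : TLevelStmt) (hLat : LatStmt) (hC : ConnStmt)
    (hG : GeomPStmt)
    [Finite (IsLocalRing.ResidueField 𝒪)] [CharZero 𝒪]
    (hp : p.Prime) (hp2 : p ≠ 2) (hp𝒪 : (p : 𝒪) ∈ IsLocalRing.maximalIdeal 𝒪)
    (hN : p ∣ N ∧ ¬ p ^ 2 ∣ N) (hNS : ∀ q : ℕ, q.Prime → q ∣ N → q ∈ S)
    (H : CuspForm.HeckeGaloisRepDatum N (↑S : Set ℕ) 𝒪 θ T)
    (hres : (GaloisRepAdic.ofResidualGaloisRep H.ρ.residual).IsOrdinaryAt p) :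
    H.ρ.IsOrdinaryAt p :=
  isOrdinaryAt_of_pFiltAlg hTL hLat hp hp2 hp𝒪 hN hNS H hres
    (pFiltAlgStmt_of_connStmt hC hp hp2 (hG N p hp hp2 hN.1 hN.2))

/-- **S33 from the block statements, with the `p = 3` transfer.** -/
theorem isOrdinaryAt_of_stmts' (hTL : TLevelStmt) (hLat : LatStmt) (hC : ConnStmt)
    (hG : GeomPStmtDirect) (hX : XferPStmt)
    [Finite (IsLocalRing.ResidueField 𝒪)] [CharZero 𝒪]
    (hp : p.Prime) (hp2 : p ≠ 2) (hp𝒪 : (p : 𝒪) ∈ IsLocalRing.maximalIdeal 𝒪)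
    (hN : p ∣ N ∧ ¬ p ^ 2 ∣ N) (hNS : ∀ q : ℕ, q.Prime → q ∣ N → q ∈ S)
    (H : CuspForm.HeckeGaloisRepDatum N (↑S : Set ℕ) 𝒪 θ T)
    (hres : (GaloisRepAdic.ofResidualGaloisRep H.ρ.residual).IsOrdinaryAt p) :
    H.ρ.IsOrdinaryAt p :=
  isOrdinaryAt_of_pFiltAlg hTL hLat hp hp2 hp𝒪 hN hNS H hres
    (pFiltAlgStmt_of_direct hC hG hX hp hp2 hN)

end Fermat.Agent.S33lib

end
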