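/-
S33lib / Ext  (helper2)  — Project LSp

Formal properties of `NoTrivSubquotIn` ("no non-zero subquotient with trivial inertia action"):
* it passes to subgroups (`noTrivSubquotIn_of_le`) and along injective equivariant maps
  (`noTrivSubquotIn_map`);
* it is closed under extensions (`noTrivSubquotIn_of_ext`) and products (`noTrivSubquotIn_prod`);
* it holds when one inertia element acts through a scalar `c` with `c - 1` invertible
  (`noTrivSubquotIn_of_scalar`, `noTrivSubquotIn_of_scalar_coprime`);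
and the reduction of `PFiltAlgStmt` to the single subgroup `I2 A Γ` generated by the
`(σ - 1)(τ - 1) x` (`pFiltAlgStmt_of_I2`): (P1) and (P2) hold for it by definition, so the geometry
only has to show that `I2 A (J₀(N)[p^n])` is contained in SOME group without inertia-trivial
subquotients.
-/
import Fermat.Agent.S33lib.Iface

set_option autoImplicit false

noncomputable section

namespace Fermat.Agent.S33lib

open Fermat.Agent.S19lib

local notation "Qb" => AlgebraicClosure ℚ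
local notation "GQ" => (AlgebraicClosure ℚ ≃ₐ[ℚ] AlgebraicClosure ℚ)

variable {A : ValuationSubring Qb} {J : Type} [AddCommGroup J] [DistribMulAction GQ J]

/-- `NoTrivSubquotIn` passes to subgroups. -/
theorem noTrivSubquotIn_of_le {K K' : AddSubgroup J} (h : K ≤ K')
    (hK' : NoTrivSubquotIn A K') : NoTrivSubquotIn A K :=
  fun Γ'' Γ' h1 h2 h3 h4 h5 => hK' Γ'' Γ' h1 (h2.trans h) h3 h4 h5

/-- `NoTrivSubquotIn` is **closed under extensions**: if `φ` is additive and inertia-equivariant on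
`K`, the part of `K` killed by `φ` lies in `K₁`, the image of `K` lies in `K₂`, and neither `K₁` nor
`K₂` has an inertia-trivial subquotient, then `K` has none. -/
theorem noTrivSubquotIn_of_ext {J' : Type} [AddCommGroup J'] [DistribMulAction GQ J']
    {K : AddSubgroup J} (φ : J →+ J')
    (hφ : ∀ σ ∈ IA A, ∀ x ∈ K, φ (σ • x) = σ • φ x)
    {K₁ : AddSubgroup J} (hK₁ : ∀ x ∈ K, φ x = 0 → x ∈ K₁) (h₁ : NoTrivSubquotIn A K₁)
    {K₂ : AddSubgroup J'} (hK₂ : ∀ x ∈ K, φ x ∈ K₂) (h₂ : NoTrivSubquotIn A K₂) :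
    NoTrivSubquotIn A K := by
  intro Γ'' Γ' hle hΓK hst'' hst' htriv
  -- the images
  have himg : Γ'.map φ ≤ Γ''.map φ := by
    refine h₂ (Γ''.map φ) (Γ'.map φ) (AddSubgroup.map_mono hle) ?_ ?_ ?_ ?_
    · rintro _ ⟨x, hx, rfl⟩
      exact hK₂ x (hΓK hx)
    · rintro σ hσ _ ⟨x, hx, rfl⟩
      exact ⟨σ • x, hst'' σ hσ x hx, hφ σ hσ x (hΓK (hle hx))⟩
    · rintro σ hσ _ ⟨x, hx, rfl⟩
      exact ⟨σ • x, hst' σ hσ x hx, hφ σ hσ x (hΓK hx)⟩
    · rintro σ hσ _ ⟨x, hx, rfl⟩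
      refine ⟨σ • x - x, htriv σ hσ x hx, ?_⟩
      rw [map_sub, hφ σ hσ x (hΓK hx)]
  -- the kernels
  have hker : Γ' ⊓ φ.ker ≤ Γ'' ⊓ φ.ker := by
    refine h₁ (Γ'' ⊓ φ.ker) (Γ' ⊓ φ.ker) (inf_le_inf_right _ hle) ?_ ?_ ?_ ?_
    · intro x hx
      obtain ⟨hx, hx0⟩ := AddSubgroup.mem_inf.mp hx
      exact hK₁ x (hΓK hx) (AddMonoidHom.mem_ker.mp hx0)
    · intro σ hσ x hx
      obtain ⟨hx, hx0⟩ := AddSubgroup.mem_inf.mp hx
      rw [AddMonoidHom.mem_ker] at hx0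
      refine AddSubgroup.mem_inf.mpr ⟨hst'' σ hσ x hx, AddMonoidHom.mem_ker.mpr ?_⟩
      rw [hφ σ hσ x (hΓK (hle hx)), hx0, smul_zero]
    · intro σ hσ x hx
      obtain ⟨hx, hx0⟩ := AddSubgroup.mem_inf.mp hx
      rw [AddMonoidHom.mem_ker] at hx0
      refine AddSubgroup.mem_inf.mpr ⟨hst' σ hσ x hx, AddMonoidHom.mem_ker.mpr ?_⟩
      rw [hφ σ hσ x (hΓK hx), hx0, smul_zero]
    · intro σ hσ x hx
      obtain ⟨hx, hx0⟩ := AddSubgroup.mem_inf.mp hx
      rw [AddMonoidHom.mem_ker] at hx0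
      refine AddSubgroup.mem_inf.mpr ⟨htriv σ hσ x hx, AddMonoidHom.mem_ker.mpr ?_⟩
      rw [map_sub, hφ σ hσ x (hΓK hx), hx0, smul_zero, sub_zero]
  -- conclusion
  intro x hx
  obtain ⟨y, hy, hyx⟩ := himg ⟨x, hx, rfl⟩
  have hxy : x - y ∈ Γ' ⊓ φ.ker := by
    refine AddSubgroup.mem_inf.mpr ⟨Γ'.sub_mem hx (hle hy), AddMonoidHom.mem_ker.mpr ?_⟩
    rw [map_sub, hyx, sub_self]
  have := Γ''.add_mem (AddSubgroup.mem_inf.mp (hker hxy)).1 hy
  simpa using this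

/-- `NoTrivSubquotIn` is transported along an injective, inertia-equivariant additive map. -/
theorem noTrivSubquotIn_map {J' : Type} [AddCommGroup J'] [DistribMulAction GQ J']
    {K : AddSubgroup J} (ι : J →+ J') (hι : Function.Injective ι)
    (hσι : ∀ σ ∈ IA A, ∀ x : J, ι (σ • x) = σ • ι x)
    (hK : NoTrivSubquotIn A K) : NoTrivSubquotIn A (K.map ι) := by
  intro Γ'' Γ' hle hΓK hst'' hst' htriv
  have key : Γ'.comap ι ≤ Γ''.comap ι := by
    refine hK (Γ''.comap ι) (Γ'.comap ι) (AddSubgroup.comap_mono hle) ?_ ?_ ?_ ?_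
    · intro x hx
      obtain ⟨k, hk, hkx⟩ := hΓK (AddSubgroup.mem_comap.mp hx)
      rwa [← hι hkx]
    · intro σ hσ x hx
      rw [AddSubgroup.mem_comap] at hx ⊢
      rw [hσι σ hσ x]
      exact hst'' σ hσ _ hx
    · intro σ hσ x hx
      rw [AddSubgroup.mem_comap] at hx ⊢
      rw [hσι σ hσ x]
      exact hst' σ hσ _ hx
    · intro σ hσ x hx
      rw [AddSubgroup.mem_comap] at hx ⊢
      rw [map_sub, hσι σ hσ x]
      exact htriv σ hσ _ hx
  intro y hy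
  obtain ⟨x, -, rfl⟩ := hΓK hy
  exact key (show x ∈ Γ'.comap ι from hy)

/-- `NoTrivSubquotIn` for a product. -/
theorem noTrivSubquotIn_prod {J' : Type} [AddCommGroup J'] [DistribMulAction GQ J']
    {K : AddSubgroup J} {K' : AddSubgroup J'}
    (hK : NoTrivSubquotIn A K) (hK' : NoTrivSubquotIn A K') :
    NoTrivSubquotIn A (K.prod K') := by
  refine noTrivSubquotIn_of_ext (K₁ := K.map (AddMonoidHom.inl J J')) (K₂ := K')
    (AddMonoidHom.snd J J') (fun σ _ x _ => rfl) ?_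
    (noTrivSubquotIn_map (AddMonoidHom.inl J J') (fun a b h => by simpa using congrArg Prod.fst h)
      (fun σ _ x => by ext <;> simp) hK) (fun x hx => hx.2) hK'
  rintro ⟨a, b⟩ hx h0
  have hb : b = 0 := h0
  subst hb
  exact ⟨a, hx.1, rfl⟩

/-- If one inertia element acts on `K` through an integer scalar `c` and `c - 1` is invertible on
`K`, then `K` has no inertia-trivial subquotient. -/
theorem noTrivSubquotIn_of_scalar {K : AddSubgroup J} {σ₀ : GQ} (hσ₀ : σ₀ ∈ IA A) (c d : ℤ)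
    (hc : ∀ x ∈ K, σ₀ • x = c • x) (hd : ∀ x ∈ K, (d * (c - 1)) • x = x) :
    NoTrivSubquotIn A K := by
  intro Γ'' Γ' _ hΓK _ _ htriv x hx
  have h1 : (c - 1) • x ∈ Γ'' := by
    rw [sub_smul, one_smul, ← hc x (hΓK hx)]
    exact htriv σ₀ hσ₀ x hx
  have h2 := Γ''.zsmul_mem h1 d
  rwa [← mul_smul, hd x (hΓK hx)] at h2

/-- The cyclotomic case: `K` is killed by `p ^ n` and one inertia element acts on `K` through a
scalar `c` with `c - 1` prime to `p`. -/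
theorem noTrivSubquotIn_of_scalar_coprime {K : AddSubgroup J} {σ₀ : GQ} (hσ₀ : σ₀ ∈ IA A)
    (p n : ℕ) (c : ℤ) (hcp : IsCoprime (c - 1) (p : ℤ))
    (hK : ∀ x ∈ K, ((p : ℤ) ^ n) • x = 0)
    (hc : ∀ x ∈ K, σ₀ • x = c • x) :
    NoTrivSubquotIn A K := by
  obtain ⟨a, b, hab⟩ := (hcp.pow_right (n := n))
  refine noTrivSubquotIn_of_scalar hσ₀ c a hc (fun x hx => ?_)
  have : (a * (c - 1) + b * (p : ℤ) ^ n) • x = x := by rw [hab, one_smul]
  rw [add_smul, mul_smul b, hK x hx, smul_zero, add_zero] at this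
  exact this

/-! ### the subgroup `I² Γ` -/

/-- the subgroup generated by the `(σ - 1)(τ - 1) x`, `σ, τ` in the inertia group, `x ∈ Γ`. -/
def I2 (A : ValuationSubring Qb) (Γ : AddSubgroup J) : AddSubgroup J :=
  AddSubgroup.closure
    {y | ∃ σ ∈ IA A, ∃ τ ∈ IA A, ∃ x ∈ Γ, y = σ • (τ • x - x) - (τ • x - x)}

theorem mem_I2 {Γ : AddSubgroup J} {σ τ : GQ} (hσ : σ ∈ IA A) (hτ : τ ∈ IA A) {x : J}
    (hx : x ∈ Γ) : σ • (τ • x - x) - (τ • x - x) ∈ I2 A Γ :=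
  AddSubgroup.subset_closure ⟨σ, hσ, τ, hτ, x, hx, rfl⟩

theorem I2_le {Γ : AddSubgroup J} (hΓ : ∀ σ ∈ IA A, ∀ x ∈ Γ, σ • x ∈ Γ) : I2 A Γ ≤ Γ := by
  refine (AddSubgroup.closure_le _).mpr ?_
  rintro _ ⟨σ, hσ, τ, hτ, x, hx, rfl⟩
  have h1 : τ • x - x ∈ Γ := Γ.sub_mem (hΓ τ hτ x hx) hx
  exact Γ.sub_mem (hΓ σ hσ _ h1) h1

/-- `I² Γ` is inertia-stable (the inertia group is a group). -/
theorem smul_mem_I2 {Γ : AddSubgroup J} (hΓ : ∀ σ ∈ IA A, ∀ x ∈ Γ, σ • x ∈ Γ) {ρ : GQ}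
    (hρ : ρ ∈ IA A) {y : J} (hy : y ∈ I2 A Γ) : ρ • y ∈ I2 A Γ := by
  induction hy using AddSubgroup.closure_induction with
  | mem y hy =>
    obtain ⟨σ, hσ, τ, hτ, x, hx, rfl⟩ := hy
    have hσ' : ρ * σ * ρ⁻¹ ∈ IA A := (IA A).mul_mem ((IA A).mul_mem hρ hσ) ((IA A).inv_mem hρ)
    have hτ' : ρ * τ * ρ⁻¹ ∈ IA A := (IA A).mul_mem ((IA A).mul_mem hρ hτ) ((IA A).inv_mem hρ)
    have := mem_I2 hσ' hτ' (hΓ ρ hρ x hx)
    have e1 : (ρ * τ * ρ⁻¹) • ρ • x = ρ • τ • x := by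
      rw [← mul_smul, ← mul_smul, inv_mul_cancel_right]
    have e2 : (ρ * σ * ρ⁻¹) • (ρ • τ • x - ρ • x) = ρ • σ • (τ • x - x) := by
      rw [← smul_sub, ← mul_smul, ← mul_smul, inv_mul_cancel_right]
    rw [e1, e2] at this
    have e3 : ρ • (σ • (τ • x - x) - (τ • x - x)) = ρ • σ • (τ • x - x) - (ρ • τ • x - ρ • x) := by
      rw [smul_sub ρ (σ • (τ • x - x)), smul_sub ρ (τ • x) x]
    rw [e3]
    exact this
  | zero => rw [smul_zero]; exact (I2 A Γ).zero_mem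
  | add a b _ _ ha hb => rw [smul_add]; exact (I2 A Γ).add_mem ha hb
  | neg a _ ha => rw [smul_neg]; exact (I2 A Γ).neg_mem ha

/-- the torsion subgroups of `J₀(N)` are Galois-stable -/
theorem smul_mem_tors_JZero {N : ℕ} [NeZero N] (m : ℤ) (σ : GQ) {x : ModularCurve.JZero N}
    (hx : x ∈ tors N m) : σ • x ∈ tors N m := by
  have h0 : m • x = 0 := by
    simpa [tors, Submodule.mem_torsionBy_iff] using hx
  have h1 : m • (σ • x) = 0 := by
    have := (DistribSMul.toAddMonoidHom (ModularCurve.JZero N) σ).map_zsmul m x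
    simp only [DistribSMul.toAddMonoidHom_apply] at this
    rw [← this, h0, smul_zero]
  simpa [tors, Submodule.mem_torsionBy_iff] using h1

/-- **Reduction of `(P)`**: `PFiltAlgStmt N p` holds as soon as, for every `A ∣ p` and `n`, the
subgroup `I² (J₀(N)[p^n])` lies in some subgroup without inertia-trivial subquotients
((P1), (P2) hold for `I²` by definition). -/
theorem pFiltAlgStmt_of_I2 {N : ℕ} [NeZero N] {p : ℕ}
    (h : ∀ A : ValuationSubring Qb, A.LiesOverPrime p → ∀ n : ℕ,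
      ∃ K' : AddSubgroup (ModularCurve.JZero N),
        I2 A (tors N ((p : ℤ) ^ n)) ≤ K' ∧ NoTrivSubquotIn A K') :
    PFiltAlgStmt N p := by
  intro A hA n
  obtain ⟨K', hle, hK'⟩ := h A hA n
  have hst : ∀ σ ∈ IA A, ∀ x ∈ tors N ((p : ℤ) ^ n), σ • x ∈ tors N ((p : ℤ) ^ n) :=
    fun σ _ x hx => smul_mem_tors_JZero _ σ hx
  exact ⟨I2 A (tors N ((p : ℤ) ^ n)), I2_le hst, fun σ hσ x hx => smul_mem_I2 hst hσ hx,
    fun σ hσ τ hτ x hx => mem_I2 hσ hτ hx, noTrivSubquotIn_of_le hle hK'⟩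

end Fermat.Agent.S33lib

end
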